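import Mathlib
import Fermat.Agent.LT.T3.M.Spec
import Fermat.Agent.LT.T3.H732.EKCore

/-!
# Row LT, tower T3, station T3.18M, leaf M.1 `EKCoreC` (helper162), part A -- OFF-MAIN

The multi-place version of `LT/T3/H732/EKCore.lean` (helper732, the case `ι₁ = Unit`; imported
byte-identically for the one-variable material: `sw732`, `B732`, `A732`, `beta732`, `J732`).

Coordinate group `Crd ι₁ ι₂ = (ℤ²)^{ι₁} × (ℝ²)^{ι₂}` (`M/Spec.lean`, helper14), swap group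
`Sw162 ι₁ ι₂ = Bool^{ι₁} × Bool^{ι₂}`, `Φ₁ = δ_0 ⊗ ⊗_w (bump ⊗ bump)`,
`Φ = ∏_{t ∈ S} (1 - τ_{t c₀}) Φ₁ = ∑_{T ⊆ S} (-1)^{|T|} Φ₁(· - ∑_{t ∈ T} t c₀)`.

Part A: the definitions, invariance under the swap group, the telescoping sum
(`Phi162_hasSum`).
-/

set_option autoImplicit false
set_option linter.unusedSectionVars false

open MeasureTheory Finset
open scoped Classical

noncomputable section

namespace Fermat.Agent.LT.T3.M.H162

open Fermat.Agent.LT.T3.H732 Fermat.Agent.LT.T3.M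

variable {ι₁ ι₂ : Type}

/-- The swap group. -/
abbrev Sw162 (ι₁ ι₂ : Type) : Type := (ι₁ → Bool) × (ι₂ → Bool)

/-- The action of the swap group on the coordinate group. -/
def act162 (s : Sw162 ι₁ ι₂) : Crd ι₁ ι₂ →+ Crd ι₁ ι₂ where
  toFun y := (fun i => sw732 (s.1 i) (y.1 i), fun w => sw732 (s.2 w) (y.2 w))
  map_zero' := by
    refine Prod.ext ?_ ?_
    · funext i
      exact map_zero _
    · funext w
      exact map_zero _
  map_add' y y' := by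
    refine Prod.ext ?_ ?_
    · funext i
      exact map_add _ _ _
    · funext w
      exact map_add _ _ _

@[simp] lemma act162_fst (s : Sw162 ι₁ ι₂) (y : Crd ι₁ ι₂) (i : ι₁) :
    (act162 s y).1 i = sw732 (s.1 i) (y.1 i) := rfl

@[simp] lemma act162_snd (s : Sw162 ι₁ ι₂) (y : Crd ι₁ ι₂) (w : ι₂) :
    (act162 s y).2 w = sw732 (s.2 w) (y.2 w) := rfl

/-- The product of the swap group. -/
def sx162 (s t : Sw162 ι₁ ι₂) : Sw162 ι₁ ι₂ :=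
  (fun i => xor (s.1 i) (t.1 i), fun w => xor (s.2 w) (t.2 w))

lemma sx162_sx162 (s t : Sw162 ι₁ ι₂) : sx162 s (sx162 s t) = t := by
  refine Prod.ext ?_ ?_
  · funext i
    simp [sx162]
  · funext w
    simp [sx162]

/-- Left multiplication in the swap group, as a permutation. -/
def sxEquiv162 (s : Sw162 ι₁ ι₂) : Sw162 ι₁ ι₂ ≃ Sw162 ι₁ ι₂ where
  toFun := sx162 s
  invFun := sx162 s
  left_inv := sx162_sx162 s
  right_inv := sx162_sx162 s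

lemma act162_act162 (s t : Sw162 ι₁ ι₂) (y : Crd ι₁ ι₂) :
    act162 s (act162 t y) = act162 (sx162 s t) y := by
  refine Prod.ext ?_ ?_
  · funext i
    exact sw732_sw732 _ _ _
  · funext w
    exact sw732_sw732 _ _ _

/-- The unit element of the swap group. -/
def one162 (ι₁ ι₂ : Type) : Sw162 ι₁ ι₂ := (fun _ => false, fun _ => false)

lemma act162_one (y : Crd ι₁ ι₂) : act162 (one162 ι₁ ι₂) y = y := rfl

lemma act162_fst_eq_zero (s : Sw162 ι₁ ι₂) (y : Crd ι₁ ι₂) : (act162 s y).1 = 0 ↔ y.1 = 0 := by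
  constructor
  · intro h
    funext i
    exact (sw732_eq_zero _ _).mp (congrFun h i)
  · intro h
    funext i
    exact (sw732_eq_zero (s.1 i) (y.1 i)).mpr (congrFun h i)

variable [Fintype ι₁] [Fintype ι₂]

/-- `Φ₁ = δ_0 ⊗ ⊗_w (bump ⊗ bump)`. -/
def Phi1_162 (y : Crd ι₁ ι₂) : ℂ := (if y.1 = 0 then 1 else 0) * ∏ w, B732 (y.2 w)

lemma Phi1_162_act (s : Sw162 ι₁ ι₂) (y : Crd ι₁ ι₂) :
    Phi1_162 (act162 s y) = Phi1_162 y := by
  unfold Phi1_162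
  simp only [act162_snd, B732_sw, act162_fst_eq_zero]

/-- The sum of the translates `t c₀`, `t ∈ T`. -/
def cT162 (e : ι₁ → ℕ) (ℓ : ι₂ → ℝ) (T : Finset (Sw162 ι₁ ι₂)) : Crd ι₁ ι₂ :=
  ∑ t ∈ T, act162 t (c0 e ℓ)

/-- `Φ = ∏_{t ∈ S} (1 - τ_{t c₀}) Φ₁`, expanded. -/
def Phi162 (e : ι₁ → ℕ) (ℓ : ι₂ → ℝ) (y : Crd ι₁ ι₂) : ℂ :=
  ∑ T : Finset (Sw162 ι₁ ι₂), (-1) ^ T.card * Phi1_162 (y - cT162 e ℓ T)

/-! ## Invariance under the swap group -/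

lemma cT162_map (e : ι₁ → ℕ) (ℓ : ι₂ → ℝ) (s : Sw162 ι₁ ι₂) (T : Finset (Sw162 ι₁ ι₂)) :
    cT162 e ℓ (T.map (sxEquiv162 s).toEmbedding) = act162 s (cT162 e ℓ T) := by
  unfold cT162
  rw [Finset.sum_map, map_sum]
  refine Finset.sum_congr rfl fun t _ => ?_
  rw [act162_act162]
  rfl

lemma Phi162_act (e : ι₁ → ℕ) (ℓ : ι₂ → ℝ) (s : Sw162 ι₁ ι₂) (y : Crd ι₁ ι₂) :
    Phi162 e ℓ (act162 s y) = Phi162 e ℓ y := by
  unfold Phi162
  rw [← Equiv.sum_comp (Equiv.finsetCongr (sxEquiv162 s))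
    (fun T => (-1) ^ T.card * Phi1_162 (act162 s y - cT162 e ℓ T))]
  refine Finset.sum_congr rfl fun T _ => ?_
  have h : (Equiv.finsetCongr (sxEquiv162 s)) T = T.map (sxEquiv162 s).toEmbedding := rfl
  rw [h, Finset.card_map, cT162_map, ← map_sub, Phi1_162_act]

/-! ## Telescoping along `c₀` -/

/-- `Φ₂ = ∏_{t ≠ 1} (1 - τ_{t c₀}) Φ₁`, expanded. -/
def Phi2_162 (e : ι₁ → ℕ) (ℓ : ι₂ → ℝ) (y : Crd ι₁ ι₂) : ℂ :=
  ∑ T ∈ ((Finset.univ : Finset (Sw162 ι₁ ι₂)).erase (one162 ι₁ ι₂)).powerset,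
    (-1) ^ T.card * Phi1_162 (y - cT162 e ℓ T)

lemma Phi162_eq_sub (e : ι₁ → ℕ) (ℓ : ι₂ → ℝ) (y : Crd ι₁ ι₂) :
    Phi162 e ℓ y = Phi2_162 e ℓ y - Phi2_162 e ℓ (y - c0 e ℓ) := by
  unfold Phi162 Phi2_162
  have h1 : (Finset.univ : Finset (Finset (Sw162 ι₁ ι₂)))
      = (insert (one162 ι₁ ι₂)
          ((Finset.univ : Finset (Sw162 ι₁ ι₂)).erase (one162 ι₁ ι₂))).powerset := by
    rw [Finset.insert_erase (Finset.mem_univ _), Finset.powerset_univ]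
  rw [h1, Finset.sum_powerset_insert (Finset.notMem_erase _ _), sub_eq_add_neg,
    ← Finset.sum_neg_distrib]
  congr 1
  refine Finset.sum_congr rfl fun T hT => ?_
  have hT' : one162 ι₁ ι₂ ∉ T := fun h =>
    Finset.notMem_erase (one162 ι₁ ι₂) Finset.univ (Finset.mem_powerset.mp hT h)
  have h2 : cT162 e ℓ (insert (one162 ι₁ ι₂) T) = c0 e ℓ + cT162 e ℓ T := by
    unfold cT162
    rw [Finset.sum_insert hT', act162_one]
  rw [Finset.card_insert_of_notMem hT', pow_succ, h2, sub_add_eq_sub_sub]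
  ring

lemma Phi1_162_eq_zero {y : Crd ι₁ ι₂} (h : y.1 ≠ 0) : Phi1_162 y = 0 := by
  simp [Phi1_162, h]

lemma Phi2_162_ne_zero (e : ι₁ → ℕ) (ℓ : ι₂ → ℝ) {y : Crd ι₁ ι₂}
    (h : Phi2_162 e ℓ y ≠ 0) :
    ∃ T : Finset (Sw162 ι₁ ι₂), y.1 = (cT162 e ℓ T).1 := by
  unfold Phi2_162 at h
  obtain ⟨T, _, hT⟩ := Finset.exists_ne_zero_of_sum_ne_zero h
  refine ⟨T, ?_⟩
  by_contra hne
  refine hT ?_
  rw [Phi1_162_eq_zero, mul_zero]
  intro h0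
  exact hne (sub_eq_zero.mp h0)

lemma Phi2_162_finite [Nonempty ι₁] (e : ι₁ → ℕ) (he : ∀ i, 0 < e i) (ℓ : ι₂ → ℝ)
    (Δ : Crd ι₁ ι₂) :
    (Function.support fun j : ℤ => Phi2_162 e ℓ (Δ + j • c0 e ℓ)).Finite := by
  obtain ⟨i₀⟩ := ‹Nonempty ι₁›
  have hsub : (Function.support fun j : ℤ => Phi2_162 e ℓ (Δ + j • c0 e ℓ)) ⊆
      ⋃ T : Finset (Sw162 ι₁ ι₂),
        {j : ℤ | (Δ.1 i₀).1 + j * (e i₀ : ℤ) = ((cT162 e ℓ T).1 i₀).1} := by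
    intro j hj
    obtain ⟨T, hT⟩ := Phi2_162_ne_zero e ℓ (Function.mem_support.mp hj)
    refine Set.mem_iUnion.mpr ⟨T, ?_⟩
    have := congrArg Prod.fst (congrFun hT i₀)
    simpa [c0] using this
  refine Set.Finite.subset (Set.finite_iUnion fun T => ?_) hsub
  refine Set.Subsingleton.finite ?_
  intro j hj j' hj'
  have hj : (Δ.1 i₀).1 + j * (e i₀ : ℤ) = ((cT162 e ℓ T).1 i₀).1 := hj
  have hj' : (Δ.1 i₀).1 + j' * (e i₀ : ℤ) = ((cT162 e ℓ T).1 i₀).1 := hj'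
  have hn' : (e i₀ : ℤ) ≠ 0 := by exact_mod_cast (he i₀).ne'
  have : j * (e i₀ : ℤ) = j' * (e i₀ : ℤ) := by linarith
  exact mul_right_cancel₀ hn' this

omit [Fintype ι₁] [Fintype ι₂] in
lemma smul_sub_c0_162 (e : ι₁ → ℕ) (ℓ : ι₂ → ℝ) (Δ : Crd ι₁ ι₂) (j : ℤ) :
    Δ + j • c0 e ℓ - c0 e ℓ = Δ + (j - 1) • c0 e ℓ := by
  rw [sub_smul, one_smul, add_sub_assoc]

/-- **The telescoping sum**: `∑_{j ∈ ℤ} Φ(Δ + j c₀) = 0`. -/
theorem Phi162_hasSum [Nonempty ι₁] (e : ι₁ → ℕ) (he : ∀ i, 0 < e i) (ℓ : ι₂ → ℝ)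
    (Δ : Crd ι₁ ι₂) :
    HasSum (fun j : ℤ => Phi162 e ℓ (Δ + j • c0 e ℓ)) 0 := by
  set g : ℤ → ℂ := fun j => Phi2_162 e ℓ (Δ + j • c0 e ℓ) with hgdef
  have hg : Summable g := summable_of_hasFiniteSupport (Phi2_162_finite e he ℓ Δ)
  have h1 : HasSum g (∑' j, g j) := hg.hasSum
  have h2 : HasSum (g ∘ (Equiv.subRight (1 : ℤ))) (∑' j, g j) :=
    (Equiv.hasSum_iff (Equiv.subRight (1 : ℤ))).mpr h1
  have h3 : HasSum (fun j => g j - (g ∘ (Equiv.subRight (1 : ℤ))) j) (∑' j, g j - ∑' j, g j) :=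
    h1.sub h2
  rw [sub_self] at h3
  have hfun : (fun j : ℤ => Phi162 e ℓ (Δ + j • c0 e ℓ))
      = fun j => g j - (g ∘ (Equiv.subRight (1 : ℤ))) j := by
    funext j
    rw [Phi162_eq_sub, smul_sub_c0_162]
    rfl
  rw [hfun]
  exact h3

end Fermat.Agent.LT.T3.M.H162

end
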