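import Mathlib
import Fermat.Agent.LT.T3.M.H162.EKCoreA

/-!
# Row LT, tower T3, station T3.18M, leaf M.1 `EKCoreC` (helper162), part B -- OFF-MAIN

The Fourier--Laplace transform of `Φ` (`ft_Phi162`):
`ftCrd Φ z₁ z₂ = J · ∏_{t ∈ S} (1 - ∏_i z_{t_i, i}^{e_i})`, and its non-vanishing.
-/

set_option autoImplicit false
set_option linter.unusedSectionVars false

open MeasureTheory Finset
open scoped Classical

noncomputable section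

namespace Fermat.Agent.LT.T3.M.H162

open Fermat.Agent.LT.T3.H732 Fermat.Agent.LT.T3.M

variable {ι₁ ι₂ : Type} [Fintype ι₁] [Fintype ι₂]

lemma Phi162_apply (e : ι₁ → ℕ) (ℓ : ι₂ → ℝ) (m : ι₁ → ℤ × ℤ) (x : ι₂ → ℝ × ℝ) :
    Phi162 e ℓ (m, x) = ∑ T : Finset (Sw162 ι₁ ι₂),
      ((-1) ^ T.card * (if m = (cT162 e ℓ T).1 then 1 else 0)) *
        ∏ w, B732 ((x - (cT162 e ℓ T).2) w) := by
  unfold Phi162 Phi1_162
  refine Finset.sum_congr rfl fun T _ => ?_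
  simp only [Prod.fst_sub, Prod.snd_sub, sub_eq_zero, mul_assoc]

lemma integral_Phi162 (e : ι₁ → ℕ) (ℓ : ι₂ → ℝ) (m : ι₁ → ℤ × ℤ) :
    ∫ x : ι₂ → ℝ × ℝ, Phi162 e ℓ (m, x) = ∑ T : Finset (Sw162 ι₁ ι₂),
      ((-1) ^ T.card * (if m = (cT162 e ℓ T).1 then 1 else 0)) * J732 ι₂ := by
  simp only [Phi162_apply]
  rw [integral_finsetSum]
  · refine Finset.sum_congr rfl fun T _ => ?_
    rw [integral_const_mul, integral_G732]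
  · intro T _
    exact (integrable_G732 _).const_mul _

/-- The character `m ↦ ∏_i z₁ᵢ^{m_{i,1}} z₂ᵢ^{m_{i,2}}`. -/
def chi162 (z₁ z₂ : ι₁ → ℂ) (m : ι₁ → ℤ × ℤ) : ℂ := ∏ i, (z₁ i ^ (m i).1 * z₂ i ^ (m i).2)

lemma chi162_zero (z₁ z₂ : ι₁ → ℂ) : chi162 z₁ z₂ 0 = 1 := by simp [chi162]

lemma chi162_add {z₁ z₂ : ι₁ → ℂ} (h₁ : ∀ i, z₁ i ≠ 0) (h₂ : ∀ i, z₂ i ≠ 0)
    (m m' : ι₁ → ℤ × ℤ) :
    chi162 z₁ z₂ (m + m') = chi162 z₁ z₂ m * chi162 z₁ z₂ m' := by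
  unfold chi162
  rw [← Finset.prod_mul_distrib]
  refine Finset.prod_congr rfl fun i _ => ?_
  simp only [Pi.add_apply, Prod.fst_add, Prod.snd_add, zpow_add₀ (h₁ i), zpow_add₀ (h₂ i)]
  ring

lemma chi162_sum {z₁ z₂ : ι₁ → ℂ} (h₁ : ∀ i, z₁ i ≠ 0) (h₂ : ∀ i, z₂ i ≠ 0) {α : Type}
    (T : Finset α) (f : α → ι₁ → ℤ × ℤ) :
    chi162 z₁ z₂ (∑ t ∈ T, f t) = ∏ t ∈ T, chi162 z₁ z₂ (f t) := by
  induction T using Finset.induction_on with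
  | empty => simp [chi162_zero]
  | insert a T ha ih => rw [Finset.sum_insert ha, Finset.prod_insert ha, chi162_add h₁ h₂, ih]

/-- The Satake parameters selected by `t`. -/
def zsel162 (z₁ z₂ : ι₁ → ℂ) (t : Sw162 ι₁ ι₂) (i : ι₁) : ℂ := bif t.1 i then z₂ i else z₁ i

lemma chi162_act (e : ι₁ → ℕ) (ℓ : ι₂ → ℝ) (z₁ z₂ : ι₁ → ℂ) (t : Sw162 ι₁ ι₂) :
    chi162 z₁ z₂ (act162 t (c0 e ℓ)).1 = ∏ i, zsel162 z₁ z₂ t i ^ e i := by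
  unfold chi162
  refine Finset.prod_congr rfl fun i _ => ?_
  rw [act162_fst]
  unfold zsel162
  cases h : t.1 i <;> simp [c0]

lemma chi162_cT {z₁ z₂ : ι₁ → ℂ} (h₁ : ∀ i, z₁ i ≠ 0) (h₂ : ∀ i, z₂ i ≠ 0) (e : ι₁ → ℕ)
    (ℓ : ι₂ → ℝ) (T : Finset (Sw162 ι₁ ι₂)) :
    chi162 z₁ z₂ (cT162 e ℓ T).1 = ∏ t ∈ T, ∏ i, zsel162 z₁ z₂ t i ^ e i := by
  unfold cT162
  rw [Prod.fst_sum, chi162_sum h₁ h₂]
  refine Finset.prod_congr rfl fun t _ => ?_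
  exact chi162_act e ℓ z₁ z₂ t

/-- **The transform of `Φ`**. -/
theorem ft_Phi162 (e : ι₁ → ℕ) (ℓ : ι₂ → ℝ) {z₁ z₂ : ι₁ → ℂ} (h₁ : ∀ i, z₁ i ≠ 0)
    (h₂ : ∀ i, z₂ i ≠ 0) :
    ftCrd (Phi162 e ℓ) z₁ z₂
      = J732 ι₂ * ∏ t : Sw162 ι₁ ι₂, (1 - ∏ i, zsel162 z₁ z₂ t i ^ e i) := by
  unfold ftCrd
  have hrw : ∀ m : ι₁ → ℤ × ℤ,
      (∫ x : ι₂ → ℝ × ℝ, Phi162 e ℓ (m, x)) * ∏ i, (z₁ i ^ (m i).1 * z₂ i ^ (m i).2)
      = ∑ T : Finset (Sw162 ι₁ ι₂),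
          (if m = (cT162 e ℓ T).1 then ((-1) ^ T.card * J732 ι₂) * chi162 z₁ z₂ m else 0) := by
    intro m
    rw [integral_Phi162, Finset.sum_mul]
    refine Finset.sum_congr rfl fun T _ => ?_
    by_cases hm : m = (cT162 e ℓ T).1
    · simp only [if_pos hm, mul_one, chi162]
    · simp only [if_neg hm, mul_zero, zero_mul]
  simp only [hrw]
  rw [finsum_sum_comm]
  · have hsingle : ∀ T : Finset (Sw162 ι₁ ι₂),
        (∑ᶠ m : ι₁ → ℤ × ℤ, (if m = (cT162 e ℓ T).1 then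
          ((-1) ^ T.card * J732 ι₂) * chi162 z₁ z₂ m else 0))
        = ((-1) ^ T.card * J732 ι₂) * chi162 z₁ z₂ (cT162 e ℓ T).1 := by
      intro T
      rw [finsum_eq_single _ (cT162 e ℓ T).1]
      · simp
      · intro m hm
        simp [hm]
    simp only [hsingle]
    have hprod := Finset.prod_sub (fun _ : Sw162 ι₁ ι₂ => (1 : ℂ))
      (fun t : Sw162 ι₁ ι₂ => ∏ i, zsel162 z₁ z₂ t i ^ e i) Finset.univ
    rw [hprod, Finset.powerset_univ, Finset.mul_sum]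
    refine Finset.sum_congr rfl fun T _ => ?_
    rw [chi162_cT h₁ h₂]
    simp only [Finset.prod_const_one, mul_one]
    ring
  · intro T _
    refine Set.Finite.subset (Set.finite_singleton (cT162 e ℓ T).1) ?_
    intro m hm
    by_contra hne
    exact hm (by simp [show m ≠ (cT162 e ℓ T).1 from hne])

/-- **Non-vanishing of the transform.** -/
theorem ft_Phi162_ne_zero (e : ι₁ → ℕ) (ℓ : ι₂ → ℝ) {z₁ z₂ : ι₁ → ℂ} (h₁ : ∀ i, z₁ i ≠ 0)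
    (h₂ : ∀ i, z₂ i ≠ 0)
    (hz : ∀ z : ι₁ → ℂ, (∀ i, z i = z₁ i ∨ z i = z₂ i) → ∏ i, z i ^ e i ≠ 1) :
    ftCrd (Phi162 e ℓ) z₁ z₂ ≠ 0 := by
  rw [ft_Phi162 e ℓ h₁ h₂]
  refine mul_ne_zero J732_ne_zero (Finset.prod_ne_zero_iff.mpr fun t _ => ?_)
  refine sub_ne_zero.mpr (Ne.symm (hz _ fun i => ?_))
  unfold zsel162
  cases t.1 i
  · exact Or.inl rfl
  · exact Or.inr rfl

end Fermat.Agent.LT.T3.M.H162

end
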