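import Mathlib
import Fermat.Agent.LT.T3.M.H162.EKCoreB

/-!
# Row LT, tower T3, station T3.18M, leaf M.1 `EKCoreC` (helper162) -- OFF-MAIN

`ekCoreC162 : Fermat.Agent.LT.T3.M.EKCoreC`, VERBATIM the Prop of `LT/T3/M/Spec.lean`
(helper14, sha256 bf15afa4075803ee).  Mathlib + the definitions of the Spec + the one-variable
material of `LT/T3/H732/EKCore.lean` (helper732, sha256 ad6336de579f5edb, byte-identical).

Part C: `Φ` is in the span of the symmetric pure tensors (average over the swap group), and the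
leaf.
-/

set_option autoImplicit false
set_option linter.unusedSectionVars false

open MeasureTheory Finset
open scoped Classical

noncomputable section

namespace Fermat.Agent.LT.T3.M.H162

open Fermat.Agent.LT.T3.H732 Fermat.Agent.LT.T3.M Fermat.Agent.LT.T3.AS

variable {ι₁ ι₂ : Type} [Fintype ι₁] [Fintype ι₂]

/-- The sum over the swap group of a translate of `Φ₁` is a pure tensor. -/
lemma sum_act_Phi1_162 (c : Crd ι₁ ι₂) (y : Crd ι₁ ι₂) :
    ∑ s : Sw162 ι₁ ι₂, Phi1_162 (act162 s y - c)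
      = (∏ i, A732 (c.1 i) (y.1 i)) * ∏ w, beta732 (c.2 w) (y.2 w) := by
  have hA : (∏ i, A732 (c.1 i) (y.1 i))
      = ∑ s₁ : ι₁ → Bool, ∏ i, (if sw732 (s₁ i) (y.1 i) = c.1 i then (1 : ℂ) else 0) := by
    unfold A732
    rw [Fintype.prod_sum]
  have hB : (∏ w, beta732 (c.2 w) (y.2 w))
      = ∑ s₂ : ι₂ → Bool, ∏ w, B732 (sw732 (s₂ w) (y.2 w) - c.2 w) := by
    unfold beta732
    rw [Fintype.prod_sum]
  rw [hA, hB, Fintype.sum_prod_type, Finset.sum_mul_sum]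
  refine Finset.sum_congr rfl fun s₁ _ => ?_
  refine Finset.sum_congr rfl fun s₂ _ => ?_
  unfold Phi1_162
  congr 1
  have hiff : ((act162 (s₁, s₂) y - c).1 = 0) ↔ ((fun i => sw732 (s₁ i) (y.1 i)) = c.1) := by
    rw [Prod.fst_sub, sub_eq_zero]
    rfl
  by_cases h : (fun i => sw732 (s₁ i) (y.1 i)) = c.1
  · rw [if_pos (hiff.mpr h)]
    symm
    refine Finset.prod_eq_one fun i _ => ?_
    rw [if_pos (congrFun h i)]
  · rw [if_neg (fun h' => h (hiff.mp h'))]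
    obtain ⟨i, hi⟩ := Function.ne_iff.mp h
    symm
    exact Finset.prod_eq_zero (Finset.mem_univ i) (by rw [if_neg hi])

/-- The pure tensor obtained by averaging a translate of `Φ₁` is symmetric. -/
lemma isSymPureCrd_avg162 (c : Crd ι₁ ι₂) :
    IsSymPureCrd ι₁ ι₂
      (fun y => (∏ i, A732 (c.1 i) (y.1 i)) * ∏ w, beta732 (c.2 w) (y.2 w)) :=
  ⟨fun i => A732 (c.1 i), fun w => beta732 (c.2 w),
    fun i => ⟨A732_support (c.1 i), A732_symm (c.1 i)⟩,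
    fun _ => ⟨contDiff_beta732 _, hasCompactSupport_beta732 _, beta732_symm _⟩, rfl⟩

lemma Phi162_eq_avg (e : ι₁ → ℕ) (ℓ : ι₂ → ℝ) (y : Crd ι₁ ι₂) :
    Phi162 e ℓ y = ∑ T : Finset (Sw162 ι₁ ι₂),
      ((-1) ^ T.card * ((Fintype.card (Sw162 ι₁ ι₂) : ℂ))⁻¹) *
        ((∏ i, A732 ((cT162 e ℓ T).1 i) (y.1 i))
          * ∏ w, beta732 ((cT162 e ℓ T).2 w) (y.2 w)) := by
  have hcard : ((Fintype.card (Sw162 ι₁ ι₂) : ℂ)) ≠ 0 := by
    have : 0 < Fintype.card (Sw162 ι₁ ι₂) := Fintype.card_pos_iff.mpr ⟨one162 ι₁ ι₂⟩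
    exact_mod_cast this.ne'
  have h1 : (Fintype.card (Sw162 ι₁ ι₂) : ℂ) * Phi162 e ℓ y
      = ∑ s : Sw162 ι₁ ι₂, Phi162 e ℓ (act162 s y) := by
    simp only [Phi162_act, Finset.sum_const, Finset.card_univ, nsmul_eq_mul]
  have h2 : ∑ s : Sw162 ι₁ ι₂, Phi162 e ℓ (act162 s y)
      = ∑ T : Finset (Sw162 ι₁ ι₂), (-1) ^ T.card *
          ((∏ i, A732 ((cT162 e ℓ T).1 i) (y.1 i))
            * ∏ w, beta732 ((cT162 e ℓ T).2 w) (y.2 w)) := by
    unfold Phi162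
    rw [Finset.sum_comm]
    refine Finset.sum_congr rfl fun T _ => ?_
    rw [← Finset.mul_sum, sum_act_Phi1_162]
  have h3 : Phi162 e ℓ y = ((Fintype.card (Sw162 ι₁ ι₂) : ℂ))⁻¹ *
      ((Fintype.card (Sw162 ι₁ ι₂) : ℂ) * Phi162 e ℓ y) := by
    field_simp
  rw [h3, h1, h2, Finset.mul_sum]
  refine Finset.sum_congr rfl fun T _ => ?_
  ring

/-- **`Φ` is in the span of the symmetric pure tensors.** -/
theorem Phi162_mem (e : ι₁ → ℕ) (ℓ : ι₂ → ℝ) : Phi162 e ℓ ∈ SymSpanCrd ι₁ ι₂ := by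
  have h : Phi162 e ℓ = ∑ T : Finset (Sw162 ι₁ ι₂),
      ((-1) ^ T.card * ((Fintype.card (Sw162 ι₁ ι₂) : ℂ))⁻¹) •
        (fun y : Crd ι₁ ι₂ =>
          (∏ i, A732 ((cT162 e ℓ T).1 i) (y.1 i))
            * ∏ w, beta732 ((cT162 e ℓ T).2 w) (y.2 w)) := by
    funext y
    rw [Phi162_eq_avg, Finset.sum_apply]
    rfl
  rw [h]
  exact Submodule.sum_mem _ fun T _ =>
    Submodule.smul_mem _ _ (Submodule.subset_span (isSymPureCrd_avg162 _))

end Fermat.Agent.LT.T3.M.H162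

namespace Fermat.Agent.LT.T3.M.H162

open Fermat.Agent.LT.T3.M

/-- **T3.18M.1 `M.EKCoreC`**, VERBATIM. -/
theorem ekCoreC162 : EKCoreC := by
  intro ι₁ ι₂ _ _ _ e ℓ he
  refine ⟨Phi162 e ℓ, ?_, fun Δ => ?_, fun z₁ z₂ h₁ h₂ hz => ?_⟩
  · convert Phi162_mem e ℓ
  · convert Phi162_hasSum e he ℓ Δ
  · convert ft_Phi162_ne_zero e ℓ h₁ h₂ hz

end Fermat.Agent.LT.T3.M.H162

end
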